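/-
GATE-E (S59 pre-work) / node E8.7 MINDATUM (helper26; helper10's GRAPH v0 6671 + ruling A2 6726):
**the frozen Hecke–Galois datum at a level `M` at which `W` is residually modular, with the
S56-shaped deformation condition on its Galois representation.**

Everything is a thin wrapper over GATE-B's SETUP bundle `P : SetupPkg.Pkg p W hcard₁ hker M A`
(helper61): `P.exists_datum` (helper36: the datum `H` on `Tloc P.O P.theta`, `det = cyc`,
unramified outside `M p`, `H.ρ.residual ≅ ρ̄`), the frozen S32 (flat at `p ∤ M`), S33 (ordinary at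
`p ∥ M`), S34 (unipotent inertia at `q ∥ M`), and helper4's `RhobarCond` (the residual type).

`CondFL P T` / `CondSO P T` : the frozen S56 conditions with ramification set `T`
(`= Smin ∪ Σ` in GRAPH v0), unipotent at `P.Smin`; they are `GB/Def/CondPlug.condFL / condSO`
at `𝒪 := P.O`, `Smin := P.Smin` (defeq).

* `exists_datum_FL` : `p ∤ M`, every `q ∈ Smin ∖ {p}` exactly divides `M`, `T ⊇ primes(M) ∪ {p}`
  ⟹ `∃ H, H.π = piT ∧ CondFL P T H.ρ ∧ hres` — BINDER-FREE over the bundle; any level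
  (`M = N_∅ ∏_{q ∈ Σ} q²` included: nothing is asked at the primes of `T ∖ Smin`);
* `exists_minDatum_FL` : the minimal level (`M` squarefree, `P.Su = ∅`): `T = P.Smin`;
* `exists_datum_SO` / `exists_minDatum_SO` : `p ∥ M`; binders `hordbar` (`ρ̄_W` ordinary at `p`, the
  binder of GATE-B's `CaseB38minNewFO`) and `hstrict` (ordinary ⟹ STRICTLY ordinary for the datum:
  the `p`-new statement `GB/B10/Top.isStrictOrdinaryAt_of_pack`);
* `hbar_FL` : `ρ̄` itself is of type `CondFL P T` for `T ⊇ Smin` (`p ∤ M`, `M` squarefree) — the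
  `hbar` binder of S53 for `R^FL_Σ`;
* `surjective_to_hecke` : S54 for a deformation ring of type `𝒟` and the datum (`R ↠ T`).
-/
import Mathlib
import Fermat.Agent.GB.B9.RhobarCond
import Fermat.Agent.GB.ResOrd.Plug
import Fermat.Agent.S33
import Fermat.Agent.S54

set_option autoImplicit false
set_option linter.unusedSectionVars false
set_option linter.unusedVariables false

open WeierstrassCurve WeierstrassCurve.Affine.Point IsLocalRing CuspForm
open scoped WeierstrassCurve.Affine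

namespace Fermat.Agent.GE8.MinDatum

open Fermat.Agent.GB.Setup.RhoBar Fermat.Agent.GB.Setup.SetupPkg
  Fermat.Agent.GB.B4.Datum.Carrier Fermat.Agent.GB.B4.Datum.HeckeCarrier

variable {p : ℕ} [Fact p.Prime] {W : WeierstrassCurve ℤ}
  {hcard₁ : Nat.card (Submodule.torsionBy ℤ
    ((W.map (Int.castRingHom ℚ))⁄(AlgebraicClosure ℚ)).Point p) = p ^ 2}
  {hker : GaloisFactorsThroughFiniteLevel
    (galoisRepModuleEnd (K := AlgebraicClosure ℚ) ℚ (W.map (Int.castRingHom ℚ)) p)}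
  {M A : ℕ} (P : Pkg p W hcard₁ hker M A)

/-- the S56-shaped FLAT condition: ramification set `T`, unipotent at `P.Smin`. -/
abbrev CondFL (T : Finset ℕ) :
    ∀ ⦃B : Type⦄ [CommRing B] [IsLocalRing B] [Algebra P.O B], GaloisRepAdic B → Prop :=
  fun _B _ _ _ ρ => GaloisRep.flatCondition P.O p T ρ ∧
    ∀ q ∈ P.Smin, q.Prime → q ≠ p → ρ.IsUnipotentOnInertiaAt q

/-- the S56-shaped STRICT-ORDINARY condition: ramification set `T`, unipotent at `P.Smin`. -/
abbrev CondSO (T : Finset ℕ) :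
    ∀ ⦃B : Type⦄ [CommRing B] [IsLocalRing B] [Algebra P.O B], GaloisRepAdic B → Prop :=
  fun _B _ _ _ ρ => GaloisRep.strictOrdinaryCondition P.O p T ρ ∧
    ∀ q ∈ P.Smin, q.Prime → q ≠ p → ρ.IsUnipotentOnInertiaAt q

/-- the `hNS` binder of S31–S34 for the bundle. -/
theorem hNS0 : ∀ q : ℕ, q.Prime → q ∣ M → q ∈ P.S0 :=
  fun q hq hqM => Finset.mem_coe.mp (P.hMS0 q hq hqM)

theorem hpS0' : p ∈ P.S0 := Finset.mem_coe.mp P.hpS0

/-- at a minimal level every prime of `M` other than `p` is in `Smin`. -/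
theorem mem_Smin_of_dvd (hSu : P.Su = ∅) {q : ℕ} (hq : q.Prime) (hqM : q ∣ M) : q ∈ P.Smin := by
  by_cases hqp : q = p
  · rw [hqp]
    exact P.p_mem_Smin
  · rcases P.mem_Smin_or_mem_Su hq hqM hqp with h | h
    · exact h
    · rw [hSu] at h
      exact absurd h (Finset.notMem_empty q)

theorem not_sq_dvd_of_squarefree (hsq : Squarefree M) {q : ℕ} (hq : q.Prime) : ¬ q ^ 2 ∣ M := by
  intro h
  have := hsq q (by rwa [pow_two] at h)
  exact hq.one_lt.ne' (Nat.isUnit_iff.mp this)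

section Level

variable [NeZero M]

/-- **E8.7, flat case, any level**: `p ∤ M`, the primes of `Smin ∖ {p}` exactly divide `M`. -/
theorem exists_datum_FL (hpM : ¬ p ∣ M) (hexact : ∀ q ∈ P.Smin, q ≠ p → ¬ q ^ 2 ∣ M)
    (T : Finset ℕ) (hpT : p ∈ T) (hMT : ∀ q : ℕ, q.Prime → q ∣ M → q ∈ T) :
    ∃ H : HeckeGaloisRepDatum M (↑P.S0 : Set ℕ) P.O P.theta (Tloc P.O P.theta),
      H.π = piT P.O P.theta ∧ CondFL P T H.ρ ∧
      H.ρ.residual.IsEquiv
        (P.rhobar.baseChangeAlong (ResidueField.map (algebraMap P.O (Tloc P.O P.theta)))) := by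
  obtain ⟨H, hπ, hdet, hunr, hres⟩ := P.exists_datum
  have hp : p.Prime := Fact.out
  refine ⟨H, hπ, ⟨⟨hdet, ?_, ?_⟩, ?_⟩, hres⟩
  · exact Fermat.Agent.S32.result hp P.hp2 P.hpO hpM (hpS0' P) (hNS0 P) H
  · intro q hq hqT
    exact hunr q hq (fun hqM => hqT (hMT q hq hqM)) (fun hqp => hqT (hqp ▸ hpT))
  · intro q hqS hq hqp
    have hqM : q ∣ M := (P.dvd_of_mem_Smin hqS).resolve_left hqp
    exact Fermat.Agent.S34.result hp P.hpO (hpS0' P) (hNS0 P) H q hq hqp hqM (hexact q hqS hqp)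

/-- **E8.7 MINDATUM, flat case**: `M` squarefree, `p ∤ M`, minimal (`P.Su = ∅`): the condition is
`𝒟^FL_∅` (`T = Smin`). -/
theorem exists_minDatum_FL (hpM : ¬ p ∣ M) (hsq : Squarefree M) (hSu : P.Su = ∅) :
    ∃ H : HeckeGaloisRepDatum M (↑P.S0 : Set ℕ) P.O P.theta (Tloc P.O P.theta),
      H.π = piT P.O P.theta ∧ CondFL P P.Smin H.ρ ∧
      H.ρ.residual.IsEquiv
        (P.rhobar.baseChangeAlong (ResidueField.map (algebraMap P.O (Tloc P.O P.theta)))) :=
  exists_datum_FL P hpM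
    (fun q hqS _ => not_sq_dvd_of_squarefree hsq (P.prime_of_mem_Smin hqS))
    P.Smin P.p_mem_Smin (fun q hq hqM => mem_Smin_of_dvd P hSu hq hqM)

/-- **E8.7, strict-ordinary case, any level**: `p ∥ M`; binders `hordbar` and `hstrict`. -/
theorem exists_datum_SO (hpM : p ∣ M) (hp2M : ¬ p ^ 2 ∣ M)
    (hexact : ∀ q ∈ P.Smin, q ≠ p → ¬ q ^ 2 ∣ M)
    (T : Finset ℕ) (hpT : p ∈ T) (hMT : ∀ q : ℕ, q.Prime → q ∣ M → q ∈ T)
    (hordbar : (GaloisRepAdic.ofResidualGaloisRep (rb p W hcard₁ hker)).IsOrdinaryAt p)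
    (hstrict : ∀ H : HeckeGaloisRepDatum M (↑P.S0 : Set ℕ) P.O P.theta (Tloc P.O P.theta),
      H.π = piT P.O P.theta → H.ρ.IsOrdinaryAt p → H.ρ.IsStrictOrdinaryAt p) :
    ∃ H : HeckeGaloisRepDatum M (↑P.S0 : Set ℕ) P.O P.theta (Tloc P.O P.theta),
      H.π = piT P.O P.theta ∧ CondSO P T H.ρ ∧
      H.ρ.residual.IsEquiv
        (P.rhobar.baseChangeAlong (ResidueField.map (algebraMap P.O (Tloc P.O P.theta)))) := by
  obtain ⟨H, hπ, hdet, hunr, hres⟩ := P.exists_datum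
  have hp : p.Prime := Fact.out
  have hres33 : (GaloisRepAdic.ofResidualGaloisRep H.ρ.residual).IsOrdinaryAt p :=
    Fermat.Agent.GB.ResOrd.Plug.hres_of_isEquiv_baseChangeAlong (rb p W hcard₁ hker) P.k
      (ResidueField.map (algebraMap P.O (Tloc P.O P.theta))) hres hordbar
  have hord : H.ρ.IsOrdinaryAt p :=
    Fermat.Agent.S33.result hp P.hp2 P.hpO ⟨hpM, hp2M⟩ (hNS0 P) H hres33
  refine ⟨H, hπ, ⟨⟨hdet, hstrict H hπ hord, ?_⟩, ?_⟩, hres⟩
  · intro q hq hqT
    exact hunr q hq (fun hqM => hqT (hMT q hq hqM)) (fun hqp => hqT (hqp ▸ hpT))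
  · intro q hqS hq hqp
    have hqM : q ∣ M := (P.dvd_of_mem_Smin hqS).resolve_left hqp
    exact Fermat.Agent.S34.result hp P.hpO (hpS0' P) (hNS0 P) H q hq hqp hqM (hexact q hqS hqp)

/-- **E8.7 MINDATUM, strict-ordinary case**: `M` squarefree, `p ∣ M`, minimal. -/
theorem exists_minDatum_SO (hpM : p ∣ M) (hsq : Squarefree M) (hSu : P.Su = ∅)
    (hordbar : (GaloisRepAdic.ofResidualGaloisRep (rb p W hcard₁ hker)).IsOrdinaryAt p)
    (hstrict : ∀ H : HeckeGaloisRepDatum M (↑P.S0 : Set ℕ) P.O P.theta (Tloc P.O P.theta),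
      H.π = piT P.O P.theta → H.ρ.IsOrdinaryAt p → H.ρ.IsStrictOrdinaryAt p) :
    ∃ H : HeckeGaloisRepDatum M (↑P.S0 : Set ℕ) P.O P.theta (Tloc P.O P.theta),
      H.π = piT P.O P.theta ∧ CondSO P P.Smin H.ρ ∧
      H.ρ.residual.IsEquiv
        (P.rhobar.baseChangeAlong (ResidueField.map (algebraMap P.O (Tloc P.O P.theta)))) :=
  exists_datum_SO P hpM (not_sq_dvd_of_squarefree hsq (Fact.out : p.Prime))
    (fun q hqS _ => not_sq_dvd_of_squarefree hsq (P.prime_of_mem_Smin hqS))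
    P.Smin P.p_mem_Smin (fun q hq hqM => mem_Smin_of_dvd P hSu hq hqM) hordbar hstrict

end Level

/-- **the residual type, flat case** (`hbar` of S53 for `R^FL_Σ`, `T = Smin ∪ Σ`). -/
theorem hbar_FL (hpM : ¬ p ∣ M) (hsq : Squarefree M) (T : Finset ℕ) (hT : P.Smin ⊆ T) :
    CondFL P T (GaloisRepAdic.ofResidualGaloisRep P.rhobar) := by
  refine ⟨⟨P.hdet, Fermat.Agent.GB.B9.RhobarCond.isFlatAt_rhobar P hpM, fun q hq hqT => ?_⟩,
    Fermat.Agent.GB.B9.RhobarCond.hunip_pkg P hsq⟩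
  have hqS : q ∉ P.Smin := fun h => hqT (hT h)
  have hqp : q ≠ p := fun h => hqS (h ▸ P.p_mem_Smin)
  have hur : P.rhobar.IsUnramifiedAt q := by
    by_contra hram
    exact hqS ((P.hmin q hq hqp).2 hram)
  exact hur

/-- **`R ↠ T` at the datum** (frozen S54) for a deformation ring of any type `𝒟` satisfied by
`H.ρ`. -/
theorem surjective_to_hecke [NeZero M]
    {𝒟 : ∀ ⦃B : Type⦄ [CommRing B] [IsLocalRing B] [Algebra P.O B], GaloisRepAdic B → Prop}
    (D : GaloisRep.DeformationRingData P.O P.rhobar 𝒟)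
    (H : HeckeGaloisRepDatum M (↑P.S0 : Set ℕ) P.O P.theta (Tloc P.O P.theta))
    (h𝒟 : 𝒟 H.ρ)
    (hres : H.ρ.residual.IsEquiv
      (P.rhobar.baseChangeAlong (ResidueField.map (algebraMap P.O (Tloc P.O P.theta))))) :
    ∃ φ : D.R →ₐ[P.O] Tloc P.O P.theta, Function.Surjective φ ∧
      ∃ hφ : IsLocalHom (φ : D.R →+* Tloc P.O P.theta),
        (D.ρ.baseChangeAlong (φ : D.R →+* Tloc P.O P.theta) hφ).IsEquiv H.ρ :=
  Fermat.Agent.S54.result D H (fun q hq hqM => P.hMS0 q hq hqM) h𝒟 hres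

end Fermat.Agent.GE8.MinDatum
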