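/-
GATE-E (S59 pre-work) / node E8.7 MINDATUM in the vocabulary of the ENGINE CONTRACT
(`GE/Graph/RTStmt`, helper10) (helper26):

* `condFL_iff` / `condSO_iff` : `Graph.condFL P.O p P.Smin Sig = MinDatum.CondFL P (P.Smin ∪ Sig)`
  (`Iff.rfl`);
* `exists_datum_condFL` / `exists_datum_condSO` : the datum at level `M` with `𝒟^c_Σ` (`Σ = Sig`);
* `nonempty_rtData` : **`RTData` from the frozen datum**: for a deformation ring `D` of type `𝒟`
  and the datum `H` with `𝒟 H.ρ`, `hres`, the surjection `φ : D.R ↠ T` of the frozen S54 makes an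
  `RTData` as soon as it is injective (the `R = T` statement proper: E6 at `Σ = ∅`, E9 at `Σ`).
-/
import Mathlib
import Fermat.Agent.GE8.MinDatum.Main
import Fermat.Agent.GE.Graph.RTStmt

set_option autoImplicit false
set_option linter.unusedSectionVars false
set_option linter.unusedVariables false

open WeierstrassCurve WeierstrassCurve.Affine.Point IsLocalRing CuspForm
open scoped WeierstrassCurve.Affine

namespace Fermat.Agent.GE8.MinDatum

open Fermat.Agent.GB.Setup.RhoBar Fermat.Agent.GB.Setup.SetupPkg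
  Fermat.Agent.GB.B4.Datum.Carrier Fermat.Agent.GB.B4.Datum.HeckeCarrier
  Fermat.Agent.GE.Graph

variable {p : ℕ} [Fact p.Prime] {W : WeierstrassCurve ℤ}
  {hcard₁ : Nat.card (Submodule.torsionBy ℤ
    ((W.map (Int.castRingHom ℚ))⁄(AlgebraicClosure ℚ)).Point p) = p ^ 2}
  {hker : GaloisFactorsThroughFiniteLevel
    (galoisRepModuleEnd (K := AlgebraicClosure ℚ) ℚ (W.map (Int.castRingHom ℚ)) p)}
  {M A : ℕ} (P : Pkg p W hcard₁ hker M A)

theorem condFL_iff (Sig : Finset ℕ) {B : Type} [CommRing B] [IsLocalRing B] [Algebra P.O B]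
    (ρ : GaloisRepAdic B) : condFL P.O p P.Smin Sig ρ ↔ CondFL P (P.Smin ∪ Sig) ρ := Iff.rfl

theorem condSO_iff (Sig : Finset ℕ) {B : Type} [CommRing B] [IsLocalRing B] [Algebra P.O B]
    (ρ : GaloisRepAdic B) : condSO P.O p P.Smin Sig ρ ↔ CondSO P (P.Smin ∪ Sig) ρ := Iff.rfl

/-- the datum at level `M` with `𝒟^{fl}_Σ`, `Σ = Sig ⊇ primes(M) ∖ Smin`. -/
theorem exists_datum_condFL [NeZero M] (hpM : ¬ p ∣ M)
    (hexact : ∀ q ∈ P.Smin, q ≠ p → ¬ q ^ 2 ∣ M) (Sig : Finset ℕ)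
    (hMT : ∀ q : ℕ, q.Prime → q ∣ M → q ∈ P.Smin ∪ Sig) :
    ∃ H : HeckeGaloisRepDatum M (↑P.S0 : Set ℕ) P.O P.theta (Tloc P.O P.theta),
      H.π = piT P.O P.theta ∧ condFL P.O p P.Smin Sig H.ρ ∧
      H.ρ.residual.IsEquiv
        (P.rhobar.baseChangeAlong (ResidueField.map (algebraMap P.O (Tloc P.O P.theta)))) := by
  obtain ⟨H, hπ, hc, hres⟩ := exists_datum_FL P hpM hexact (P.Smin ∪ Sig)
    (Finset.mem_union_left _ P.p_mem_Smin) hMT
  exact ⟨H, hπ, (condFL_iff P Sig H.ρ).mpr hc, hres⟩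

/-- the datum at level `M` with `𝒟^{so}_Σ` (binders `hordbar`, `hstrict`). -/
theorem exists_datum_condSO [NeZero M] (hpM : p ∣ M) (hp2M : ¬ p ^ 2 ∣ M)
    (hexact : ∀ q ∈ P.Smin, q ≠ p → ¬ q ^ 2 ∣ M) (Sig : Finset ℕ)
    (hMT : ∀ q : ℕ, q.Prime → q ∣ M → q ∈ P.Smin ∪ Sig)
    (hordbar : (GaloisRepAdic.ofResidualGaloisRep (rb p W hcard₁ hker)).IsOrdinaryAt p)
    (hstrict : ∀ H : HeckeGaloisRepDatum M (↑P.S0 : Set ℕ) P.O P.theta (Tloc P.O P.theta),
      H.π = piT P.O P.theta → H.ρ.IsOrdinaryAt p → H.ρ.IsStrictOrdinaryAt p) :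
    ∃ H : HeckeGaloisRepDatum M (↑P.S0 : Set ℕ) P.O P.theta (Tloc P.O P.theta),
      H.π = piT P.O P.theta ∧ condSO P.O p P.Smin Sig H.ρ ∧
      H.ρ.residual.IsEquiv
        (P.rhobar.baseChangeAlong (ResidueField.map (algebraMap P.O (Tloc P.O P.theta)))) := by
  obtain ⟨H, hπ, hc, hres⟩ := exists_datum_SO P hpM hp2M hexact (P.Smin ∪ Sig)
    (Finset.mem_union_left _ P.p_mem_Smin) hMT hordbar hstrict
  exact ⟨H, hπ, (condSO_iff P Sig H.ρ).mpr hc, hres⟩

/-- **`RTData` from the frozen datum**: S54 gives `φ : D.R ↠ T`; injectivity is the only input. -/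
theorem nonempty_rtData [NeZero M] {𝒟 : DefCondE P.O}
    (D : GaloisRep.DeformationRingData P.O P.rhobar 𝒟)
    (H : HeckeGaloisRepDatum M (↑P.S0 : Set ℕ) P.O P.theta (Tloc P.O P.theta))
    (h𝒟 : 𝒟 H.ρ)
    (hres : H.ρ.residual.IsEquiv
      (P.rhobar.baseChangeAlong (ResidueField.map (algebraMap P.O (Tloc P.O P.theta)))))
    (hinj : ∀ φ : D.R →ₐ[P.O] Tloc P.O P.theta, Function.Surjective φ → Function.Injective φ) :
    ∃ X' : RTData P.rhobar 𝒟, X'.N = M ∧ X'.S = (↑P.S0 : Set ℕ) := by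
  obtain ⟨φ, hsurj, hφ, hρ⟩ := surjective_to_hecke P D H h𝒟 hres
  exact ⟨{ N := M
           S := (↑P.S0 : Set ℕ)
           T := Tloc P.O P.theta
           π := H.π
           ρT := H.ρ
           charpoly_frob := H.charpoly_frob
           D := D
           φ := φ
           φ_bijective := ⟨hinj φ hsurj, hsurj⟩
           φ_local := hφ
           φ_ρ := hρ }, rfl, rfl⟩

end Fermat.Agent.GE8.MinDatum
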