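/-
GATE-E (S59 pre-work) / node E8.7 MINDATUM, the residual type `hbar` in both branches, in the
vocabulary of the ENGINE CONTRACT (`GE/Graph/RTStmt`, helper10) (helper26).

`hbar` is the binder of the frozen S53 (existence of the universal deformation ring), of helper72's
`GE6/DefRing` (`TangentFinite`, `Nonempty (DeformationRingData)`, `𝒪⟦X_r⟧ ↠ R`) and of the E6/E9
chain: **`ρ̄` itself is of type `𝒟^c_Σ`**.

* `hbar_SO`     : `p ∣ M`, `M` squarefree, `p ≥ 5`, `ρ̄_W` ordinary at `p` (`hordbar`, the binder of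
  GATE-B's `CaseB38minNewFO`), `W` NOT residually modular of level `M / p` (`hX`): `ρ̄` is of type
  `CondSO P T` for every `T ⊇ Smin` (helper39's `StrictPkg.residual_isStrictOrdinaryAt_pkg_sqfree`
  + helper4's `RhobarCond.hunip_pkg` + `P.hmin`);
* `hbar_condFL` / `hbar_condSO` : the same in the spelling `Graph.condFL / condSO P.O p P.Smin Sig`
  (any `Sig`), = the `hbar` binder of `GE6/DefRing`.
-/
import Mathlib
import Fermat.Agent.GE8.MinDatum.Graph
import Fermat.Agent.GB.ResOrd.HbarSO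

set_option autoImplicit false
set_option linter.unusedSectionVars false
set_option linter.unusedVariables false

open WeierstrassCurve WeierstrassCurve.Affine.Point IsLocalRing CuspForm
open scoped WeierstrassCurve.Affine

namespace Fermat.Agent.GE8.MinDatum

open Fermat.Agent.GB.Setup.RhoBar Fermat.Agent.GB.Setup.SetupPkg
  Fermat.Agent.GB.B4.Datum.Carrier Fermat.Agent.GB.B4.Datum.HeckeCarrier
  Fermat.Agent.GE.Graph

variable {p : ℕ} [Fact p.Prime] {W : WeierstrassCurve ℤ}
  {hcard₁ : Nat.card (Submodule.torsionBy ℤ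
    ((W.map (Int.castRingHom ℚ))⁄(AlgebraicClosure ℚ)).Point p) = p ^ 2}
  {hker : GaloisFactorsThroughFiniteLevel
    (galoisRepModuleEnd (K := AlgebraicClosure ℚ) ℚ (W.map (Int.castRingHom ℚ)) p)}
  {M A : ℕ} (P : Pkg p W hcard₁ hker M A)

/-- **the residual type, strict-ordinary case** (`hbar` of S53 for `R^SO_Σ`, `T = Smin ∪ Σ`). -/
theorem hbar_SO (hp5 : 5 ≤ p) (hpM : p ∣ M) (hsq : Squarefree M)
    (hordbar : (GaloisRepAdic.ofResidualGaloisRep (rb p W hcard₁ hker)).IsOrdinaryAt p)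
    (hX : ¬ W.IsResiduallyModularOfLevel p (M / p)) (T : Finset ℕ) (hT : P.Smin ⊆ T) :
    CondSO P T (GaloisRepAdic.ofResidualGaloisRep P.rhobar) := by
  refine ⟨⟨P.hdet,
    Fermat.Agent.GB.ResOrd.StrictPkg.residual_isStrictOrdinaryAt_pkg_sqfree P hp5 hpM hsq
      hordbar hX, fun q hq hqT => ?_⟩,
    Fermat.Agent.GB.B9.RhobarCond.hunip_pkg P hsq⟩
  have hqS : q ∉ P.Smin := fun h => hqT (hT h)
  have hqp : q ≠ p := fun h => hqS (h ▸ P.p_mem_Smin)
  have hur : P.rhobar.IsUnramifiedAt q := by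
    by_contra hram
    exact hqS ((P.hmin q hq hqp).2 hram)
  exact hur

/-- `hbar` of `GE6/DefRing` in the flat branch, any `Σ = Sig`. -/
theorem hbar_condFL (hpM : ¬ p ∣ M) (hsq : Squarefree M) (Sig : Finset ℕ) :
    condFL P.O p P.Smin Sig (GaloisRepAdic.ofResidualGaloisRep P.rhobar) :=
  (condFL_iff P Sig _).mpr (hbar_FL P hpM hsq (P.Smin ∪ Sig) Finset.subset_union_left)

/-- `hbar` of `GE6/DefRing` in the strict-ordinary (`p`-new) branch, any `Σ = Sig`. -/
theorem hbar_condSO (hp5 : 5 ≤ p) (hpM : p ∣ M) (hsq : Squarefree M)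
    (hordbar : (GaloisRepAdic.ofResidualGaloisRep (rb p W hcard₁ hker)).IsOrdinaryAt p)
    (hX : ¬ W.IsResiduallyModularOfLevel p (M / p)) (Sig : Finset ℕ) :
    condSO P.O p P.Smin Sig (GaloisRepAdic.ofResidualGaloisRep P.rhobar) :=
  (condSO_iff P Sig _).mpr
    (hbar_SO P hp5 hpM hsq hordbar hX (P.Smin ∪ Sig) Finset.subset_union_left)

end Fermat.Agent.GE8.MinDatum
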