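/-
GATE-E (S59 pre-work) / node E8.7 MINDATUM, strict-ordinary case with `hstrict` DISCHARGED
(helper26): at a level `M = (M / p) * p`, `p ∤ M / p`, at which `W` is residually modular while it
is NOT residually modular of level `M / p` (the `p`-new situation; at the MINIMAL level this is
minimality), the datum of the SETUP bundle is STRICTLY ordinary at `p` — helper39's
`GB/B10/Consumer.isStrictOrdinaryAt_of_not_resMod_level` (old-killer + connected package).
Only binder left: `hordbar` (`ρ̄_W` ordinary at `p`).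
-/
import Mathlib
import Fermat.Agent.GE8.MinDatum.Main
import Fermat.Agent.GB.B10.Consumer

set_option autoImplicit false
set_option linter.unusedSectionVars false
set_option linter.unusedVariables false

open WeierstrassCurve WeierstrassCurve.Affine.Point IsLocalRing CuspForm
open scoped WeierstrassCurve.Affine

namespace Fermat.Agent.GE8.MinDatum

open Fermat.Agent.GB.Setup.RhoBar Fermat.Agent.GB.Setup.SetupPkg
  Fermat.Agent.GB.B4.Datum.Carrier Fermat.Agent.GB.B4.Datum.HeckeCarrier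

variable {p : ℕ} [Fact p.Prime] {W : WeierstrassCurve ℤ}
  {hcard₁ : Nat.card (Submodule.torsionBy ℤ
    ((W.map (Int.castRingHom ℚ))⁄(AlgebraicClosure ℚ)).Point p) = p ^ 2}
  {hker : GaloisFactorsThroughFiniteLevel
    (galoisRepModuleEnd (K := AlgebraicClosure ℚ) ℚ (W.map (Int.castRingHom ℚ)) p)}
  {M A : ℕ} (P : Pkg p W hcard₁ hker M A)

/-- the `hstrict` binder of `exists_datum_SO` in the `p`-new situation. -/
theorem hstrict_of_not_resMod [NeZero M] (hpM : p ∣ M) (hpM' : ¬ p ∣ M / p)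
    (hside : p = 3 → 2 ∣ M) (hno : ¬ W.IsResiduallyModularOfLevel p (M / p)) :
    ∀ H : HeckeGaloisRepDatum M (↑P.S0 : Set ℕ) P.O P.theta (Tloc P.O P.theta),
      H.π = piT P.O P.theta → H.ρ.IsOrdinaryAt p → H.ρ.IsStrictOrdinaryAt p := by
  intro H _ hord
  have hp : p.Prime := Fact.out
  have : NeZero (M / p) := ⟨(Nat.div_ne_zero_iff_of_dvd hpM).mpr ⟨P.hM, hp.ne_zero⟩⟩
  exact Fermat.Agent.GB.B10.Consumer.isStrictOrdinaryAt_of_not_resMod_level (N := M)
    (N' := M / p) W P.hΔ (Nat.div_mul_cancel hpM).symm hpM' P.hp2 P.hpO hside (hNS0 P) H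
    (fun ℓ hℓ hℓM hℓS => P.theta_T hℓ hℓM hℓS) hno hord

theorem not_sq_dvd_of_not_dvd_div (hpM : p ∣ M) (hpM' : ¬ p ∣ M / p) : ¬ p ^ 2 ∣ M := by
  intro h
  apply hpM'
  obtain ⟨c, hc⟩ := h
  refine ⟨c, ?_⟩
  have hp : p.Prime := Fact.out
  rw [hc, pow_two, mul_assoc, Nat.mul_div_cancel_left _ hp.pos]

/-- **E8.7, strict-ordinary case, `p`-new, any level**: only binder `hordbar`. -/
theorem exists_datum_SO_pnew [NeZero M] (hpM : p ∣ M) (hpM' : ¬ p ∣ M / p)
    (hside : p = 3 → 2 ∣ M) (hexact : ∀ q ∈ P.Smin, q ≠ p → ¬ q ^ 2 ∣ M)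
    (T : Finset ℕ) (hpT : p ∈ T) (hMT : ∀ q : ℕ, q.Prime → q ∣ M → q ∈ T)
    (hordbar : (GaloisRepAdic.ofResidualGaloisRep (rb p W hcard₁ hker)).IsOrdinaryAt p)
    (hno : ¬ W.IsResiduallyModularOfLevel p (M / p)) :
    ∃ H : HeckeGaloisRepDatum M (↑P.S0 : Set ℕ) P.O P.theta (Tloc P.O P.theta),
      H.π = piT P.O P.theta ∧ CondSO P T H.ρ ∧
      H.ρ.residual.IsEquiv
        (P.rhobar.baseChangeAlong (ResidueField.map (algebraMap P.O (Tloc P.O P.theta)))) :=
  exists_datum_SO P hpM (not_sq_dvd_of_not_dvd_div hpM hpM') hexact T hpT hMT hordbar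
    (hstrict_of_not_resMod P hpM hpM' hside hno)

/-- **E8.7 MINDATUM, strict-ordinary case, `p`-new**: `M` squarefree, minimal. -/
theorem exists_minDatum_SO_pnew [NeZero M] (hpM : p ∣ M) (hsq : Squarefree M)
    (hside : p = 3 → 2 ∣ M) (hSu : P.Su = ∅)
    (hordbar : (GaloisRepAdic.ofResidualGaloisRep (rb p W hcard₁ hker)).IsOrdinaryAt p)
    (hno : ¬ W.IsResiduallyModularOfLevel p (M / p)) :
    ∃ H : HeckeGaloisRepDatum M (↑P.S0 : Set ℕ) P.O P.theta (Tloc P.O P.theta),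
      H.π = piT P.O P.theta ∧ CondSO P P.Smin H.ρ ∧
      H.ρ.residual.IsEquiv
        (P.rhobar.baseChangeAlong (ResidueField.map (algebraMap P.O (Tloc P.O P.theta)))) := by
  have hp : p.Prime := Fact.out
  have hpM' : ¬ p ∣ M / p := by
    intro h
    obtain ⟨c, hc⟩ := h
    have h2 : p * p ∣ M := ⟨c, by rw [← Nat.mul_div_cancel' hpM, hc, mul_assoc]⟩
    exact hp.one_lt.ne' (Nat.isUnit_iff.mp (hsq p h2))
  exact exists_minDatum_SO P hpM hsq hSu hordbar (hstrict_of_not_resMod P hpM hpM' hside hno)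

end Fermat.Agent.GE8.MinDatum
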