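/-
GATE-E (S59 pre-work) / node E8.7 MINDATUM, follow-up to `Hbar.lean` (helper26): the residual type
`hbar` in the strict-ordinary branch with the SIDE hypothesis `hside : p = 3 → 2 ∣ M` in place of
`5 ≤ p` (so that `p = 3` is covered, matching helper20's `MinLevelSide` / `DescentSide` forms).

* `hbar_SO_side`, `hbar_condSO_side` : `Hbar.hbar_SO`, `Hbar.hbar_condSO` with `hside`
  (helper39's `StrictPkg.residual_isStrictOrdinaryAt_pkg` takes `hside` directly).
-/
import Mathlib
import Fermat.Agent.GE8.MinDatum.Hbar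

set_option autoImplicit false
set_option linter.unusedSectionVars false
set_option linter.unusedVariables false

open WeierstrassCurve WeierstrassCurve.Affine.Point IsLocalRing CuspForm
open scoped WeierstrassCurve.Affine

namespace Fermat.Agent.GE8.MinDatum

open Fermat.Agent.GB.Setup.RhoBar Fermat.Agent.GB.Setup.SetupPkg
  Fermat.Agent.GB.B4.Datum.Carrier Fermat.Agent.GB.B4.Datum.HeckeCarrier
  Fermat.Agent.GE.Graph

variable {p : ℕ} [Fact p.Prime] {W : WeierstrassCurve ℤ}
  {hcard₁ : Nat.card (Submodule.torsionBy ℤ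
    ((W.map (Int.castRingHom ℚ))⁄(AlgebraicClosure ℚ)).Point p) = p ^ 2}
  {hker : GaloisFactorsThroughFiniteLevel
    (galoisRepModuleEnd (K := AlgebraicClosure ℚ) ℚ (W.map (Int.castRingHom ℚ)) p)}
  {M A : ℕ} (P : Pkg p W hcard₁ hker M A)

/-- `p ∤ M / p` for squarefree `M`. -/
theorem not_dvd_div_of_squarefree (hpM : p ∣ M) (hsq : Squarefree M) : ¬ p ∣ M / p := by
  have hp : p.Prime := Fact.out
  intro h
  obtain ⟨c, hc⟩ := h
  have h2 : M = p * (M / p) := (Nat.mul_div_cancel' hpM).symm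
  have h3 : p * p ∣ M := ⟨c, by rw [h2, hc]; ring⟩
  exact hp.not_isUnit (hsq p h3)

/-- **the residual type, strict-ordinary case, side form** (`p = 3` allowed when `2 ∣ M`). -/
theorem hbar_SO_side (hside : p = 3 → 2 ∣ M) (hpM : p ∣ M) (hsq : Squarefree M)
    (hordbar : (GaloisRepAdic.ofResidualGaloisRep (rb p W hcard₁ hker)).IsOrdinaryAt p)
    (hX : ¬ W.IsResiduallyModularOfLevel p (M / p)) (T : Finset ℕ) (hT : P.Smin ⊆ T) :
    CondSO P T (GaloisRepAdic.ofResidualGaloisRep P.rhobar) := by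
  refine ⟨⟨P.hdet,
    Fermat.Agent.GB.ResOrd.StrictPkg.residual_isStrictOrdinaryAt_pkg P hpM
      (not_dvd_div_of_squarefree hpM hsq) hside hordbar hX, fun q hq hqT => ?_⟩,
    Fermat.Agent.GB.B9.RhobarCond.hunip_pkg P hsq⟩
  have hqS : q ∉ P.Smin := fun h => hqT (hT h)
  have hqp : q ≠ p := fun h => hqS (h ▸ P.p_mem_Smin)
  have hur : P.rhobar.IsUnramifiedAt q := by
    by_contra hram
    exact hqS ((P.hmin q hq hqp).2 hram)
  exact hur

/-- `hbar` of `GE6/DefRing` in the strict-ordinary (`p`-new) branch, side form, any `Σ = Sig`. -/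
theorem hbar_condSO_side (hside : p = 3 → 2 ∣ M) (hpM : p ∣ M) (hsq : Squarefree M)
    (hordbar : (GaloisRepAdic.ofResidualGaloisRep (rb p W hcard₁ hker)).IsOrdinaryAt p)
    (hX : ¬ W.IsResiduallyModularOfLevel p (M / p)) (Sig : Finset ℕ) :
    condSO P.O p P.Smin Sig (GaloisRepAdic.ofResidualGaloisRep P.rhobar) :=
  (condSO_iff P Sig _).mpr
    (hbar_SO_side P hside hpM hsq hordbar hX (P.Smin ∪ Sig) Finset.subset_union_left)

end Fermat.Agent.GE8.MinDatum
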